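import Fermat.Agent.S36.Norm.Coord

/-!
# S36/Norm (N1), part 3: the reduction of a norm is the product of the norms of the reductions
(plan: see `Adapted.lean`)
-/

set_option autoImplicit false

noncomputable section

namespace Fermat.Agent.S36.Norm

open AlgebraicCurve Fermat.Agent.GAL Fermat.Agent.GAL.RED Fermat.Agent.DR.Abs

variable {K F k : Type*} [Field K] [Field F] [Algebra K F] [Field k] {ι : Type*}
  {Fb : ι → Type*} [∀ i, Field (Fb i)] [∀ i, Algebra k (Fb i)]
  {F1 : Type*} [Field F1] [Algebra K F1] [Algebra F1 F] [IsScalarTower K F1 F]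
  {Fb1 : Type*} [Field Fb1] [Algebra k Fb1] [∀ i, Algebra Fb1 (Fb i)]

/-- determinant of a dependent block-diagonal matrix. -/
theorem RedNorm_det_blockDiagonal' {ι R : Type*} [CommRing R] [Fintype ι] [DecidableEq ι]
    {n : ι → Type*} [∀ i, Fintype (n i)] [∀ i, DecidableEq (n i)]
    (d : ∀ i, Matrix (n i) (n i) R) :
    (Matrix.blockDiagonal' d).det = ∏ i, (d i).det := by
  classical
  let _ : LinearOrder ι := LinearOrder.lift' (Fintype.equivFin ι) (Fintype.equivFin ι).injective
  rw [(Matrix.blockTriangular_blockDiagonal' d).det_fintype]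
  refine Finset.prod_congr rfl fun k _ => ?_
  let e : n k ≃ {a : Σ i, n i // a.1 = k} :=
    { toFun := fun j => ⟨⟨k, j⟩, rfl⟩
      invFun := fun a => a.2 ▸ a.1.2
      left_inv := fun j => rfl
      right_inv := by
        rintro ⟨⟨i, j⟩, h⟩
        subst h
        rfl }
  rw [← Matrix.det_submatrix_equiv_self e]
  congr 1
  ext j j'
  simp [Matrix.toSquareBlock_def, e, Matrix.blockDiagonal'_apply_eq]

/-- **(N1)** the reduction of a norm.

Proof (L3): `n i := finrank Fb1 (Fb i)`, `β i := Module.finBasis Fb1 (Fb i)`, `b` from `exists_adapted`;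
`b` is linearly independent (L2c) of cardinality `∑ n i = finrank F1 F`, so it is a basis `B`
(`basisOfLinearIndependentOfCardEqFinrank`).  Let `m p' p := B.repr (y * (c p.1 * b p)) p'`.
`c i * (y * (c p.1 * b p)) = (c i * y) * (1 * (c p.1 * b p)) ∈ O i`, so `m p' p ∈ R1.O` (L2d) and (L2a)
`u i * red_i (c p.1 * b p) = ∑ j, red (m ⟨i, j⟩ p) • β i j`, i.e. the reduction of `m` is
`Matrix.blockDiagonal' fun i => Algebra.leftMulMatrix (β i) (u i)`.
`Algebra.leftMulMatrix B y = m * diagonal (c p.1)⁻¹`;  `Algebra.norm_eq_matrix_det`,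
`Matrix.det_blockDiagonal'`, `Matrix.det_diagonal`, `RingHom.map_det` for `R1.res`,
`Finset.prod_sigma`. -/
theorem red_norm [Fintype ι] [FiniteDimensional F1 F] {R1 : RedData K F1 k Fb1}
    {T : MultiRed K F k Fb} (h : Over R1 T) (hsep : T.Sep) (c : ι → K) (hc : ∀ i, c i ≠ 0) (y : F)
    (hy : ∀ i, algebraMap K F (c i) * y ∈ (T.R i).O) :
    algebraMap K F1 (∏ i, c i ^ Module.finrank Fb1 (Fb i)) * Algebra.norm F1 y ∈ R1.O ∧
      R1.red (algebraMap K F1 (∏ i, c i ^ Module.finrank Fb1 (Fb i)) * Algebra.norm F1 y) =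
        ∏ i, Algebra.norm Fb1 ((T.R i).red (algebraMap K F (c i) * y)) := by
  classical
  have hfin := h.fin
  let β : ∀ i, Module.Basis (Fin (Module.finrank Fb1 (Fb i))) Fb1 (Fb i) :=
    fun i => Module.finBasis Fb1 (Fb i)
  obtain ⟨b, hb, hb1⟩ := exists_adapted T hsep c hc β
  have hli : LinearIndependent F1 b := hb.linearIndependent h
  have hcard : Fintype.card (Σ i, Fin (Module.finrank Fb1 (Fb i))) = Module.finrank F1 F := by
    rw [Fintype.card_sigma, ← h.sum]
    simp
  have hne : Nonempty (Σ i, Fin (Module.finrank Fb1 (Fb i))) := by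
    rw [← Fintype.card_pos_iff, hcard]
    exact Module.finrank_pos
  let B : Module.Basis (Σ i, Fin (Module.finrank Fb1 (Fb i))) F1 F :=
    basisOfLinearIndependentOfCardEqFinrank hli hcard
  have hB : ∀ p, B p = b p := fun p => by
    simp [B]
  let u : ∀ i, Fb i := fun i => (T.R i).red (algebraMap K F (c i) * y)
  let m : Matrix (Σ i, Fin (Module.finrank Fb1 (Fb i))) (Σ i, Fin (Module.finrank Fb1 (Fb i))) F1 :=
    fun p' p => B.repr (y * (algebraMap K F (c p.1) * b p)) p'
  have hsum : ∀ p, ∑ p', m p' p • b p' = y * (algebraMap K F (c p.1) * b p) := by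
    intro p
    have := B.sum_repr (y * (algebraMap K F (c p.1) * b p))
    simp only [hB] at this
    exact this
  have hrw : ∀ i p, algebraMap K F (c i) * ∑ p', m p' p • b p' =
      (algebraMap K F (c i) * y) * (algebraMap K F 1 * (algebraMap K F (c p.1) * b p)) := by
    intro i p
    rw [hsum, map_one]
    ring
  have hz : ∀ p i, algebraMap K F (c i) * ∑ p', m p' p • b p' ∈ (T.R i).O := by
    intro p i
    rw [hrw]
    exact mul_mem (hy i) (hb1.mem i p)
  have hmO : ∀ p' p, m p' p ∈ R1.O := fun p' p =>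
    hb.coord_mem h (fun p' => m p' p) (hz p) p'
  -- the reduction of `m`
  have hred : ∀ p' p, R1.red (m p' p) =
      Matrix.blockDiagonal' (fun i => Algebra.leftMulMatrix (β i) (u i)) p' p := by
    rintro ⟨i, j⟩ ⟨i', j'⟩
    have h1 := (hb.red_sum h (fun p' => m p' ⟨i', j'⟩) (fun p' => hmO p' _) i).2
    rw [hrw, (T.R i).red_mul (hy i) (hb1.mem i _)] at h1
    rw [Matrix.blockDiagonal'_apply]
    by_cases hii : i = i'
    · subst hii
      rw [dif_pos rfl]
      have h0 := hb1.red_same i j'
      rw [h0] at h1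
      show _ = Algebra.leftMulMatrix (β i) (u i) j j'
      rw [Algebra.leftMulMatrix_eq_repr_mul]
      have h2 := congrArg (fun z => (β i).repr z j) h1
      simp only [map_sum, map_smul, Module.Basis.repr_self, Finsupp.coe_finsetSum,
        Finset.sum_apply, Finsupp.coe_smul, Pi.smul_apply, smul_eq_mul,
        Finsupp.single_apply, mul_ite, mul_one, mul_zero, Finset.sum_ite_eq',
        Finset.mem_univ, if_true] at h2
      exact h2.symm
    · rw [dif_neg hii]
      rw [hb1.red_other i ⟨i', j'⟩ (fun h' => hii h'.symm), mul_zero] at h1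
      have h2 := congrArg (fun z => (β i).repr z j) h1
      simp only [map_sum, map_smul, Module.Basis.repr_self, Finsupp.coe_finsetSum,
        Finset.sum_apply, Finsupp.coe_smul, Pi.smul_apply, smul_eq_mul,
        Finsupp.single_apply, mul_ite, mul_one, mul_zero, Finset.sum_ite_eq',
        Finset.mem_univ, if_true, map_zero, Finsupp.coe_zero, Pi.zero_apply] at h2
      exact h2.symm
  -- `m = leftMulMatrix B y * diagonal c`
  have hm : m = Algebra.leftMulMatrix B y *
      Matrix.diagonal (fun p => algebraMap K F1 (c p.1)) := by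
    ext p' p
    rw [Matrix.mul_diagonal, Algebra.leftMulMatrix_eq_repr_mul, hB]
    show B.repr (y * (algebraMap K F (c p.1) * b p)) p' = _
    have : y * (algebraMap K F (c p.1) * b p) = algebraMap K F1 (c p.1) • (y * b p) := by
      rw [Algebra.smul_def, ← IsScalarTower.algebraMap_apply]
      ring
    rw [this, map_smul, Finsupp.smul_apply, smul_eq_mul, mul_comm]
  have hdet : algebraMap K F1 (∏ i, c i ^ Module.finrank Fb1 (Fb i)) * Algebra.norm F1 y =
      m.det := by
    rw [hm, Matrix.det_mul, Matrix.det_diagonal, ← Algebra.norm_eq_matrix_det, mul_comm,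
      Fintype.prod_sigma, map_prod]
    congr 1
    refine Finset.prod_congr rfl fun i _ => ?_
    simp
  -- integral model of `m`
  let m' : Matrix (Σ i, Fin (Module.finrank Fb1 (Fb i))) (Σ i, Fin (Module.finrank Fb1 (Fb i)))
    R1.O := fun p' p => ⟨m p' p, hmO p' p⟩
  have hm' : m = m'.map R1.O.subtype := rfl
  have hdet' : m.det = ((m'.det : R1.O) : F1) := by
    rw [hm', ← RingHom.mapMatrix_apply, ← RingHom.map_det]
    rfl
  rw [hdet, hdet']
  refine ⟨(m'.det).2, ?_⟩
  rw [R1.red_of_mem (m'.det).2]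
  show R1.res m'.det = _
  rw [RingHom.map_det]
  have h3 : R1.res.mapMatrix m' =
      Matrix.blockDiagonal' (fun i => Algebra.leftMulMatrix (β i) (u i)) := by
    ext p' p
    rw [← hred, R1.red_of_mem (hmO p' p)]
    rfl
  rw [h3, RedNorm_det_blockDiagonal']
  exact Finset.prod_congr rfl fun i _ => (Algebra.norm_eq_matrix_det (β i) (u i)).symm

end Fermat.Agent.S36.Norm
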