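import Fermat.Agent.S36.Norm.Adapted

/-!
# S36/Norm (N1), part 2: adapted families are bases with integral coordinates
(plan: see `Adapted.lean`)
-/

set_option autoImplicit false

noncomputable section

namespace Fermat.Agent.S36.Norm

open AlgebraicCurve Fermat.Agent.GAL Fermat.Agent.GAL.RED Fermat.Agent.DR.Abs

variable {K F k : Type*} [Field K] [Field F] [Algebra K F] [Field k] {ι : Type*}
  {Fb : ι → Type*} [∀ i, Field (Fb i)] [∀ i, Algebra k (Fb i)]
  {F1 : Type*} [Field F1] [Algebra K F1] [Algebra F1 F] [IsScalarTower K F1 F]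
  {Fb1 : Type*} [Field Fb1] [Algebra k Fb1] [∀ i, Algebra Fb1 (Fb i)]

/-- **(L2a)** reduction of a combination with integral coefficients. -/
theorem Adapted.red_sum [Fintype ι] {R1 : RedData K F1 k Fb1} {T : MultiRed K F k Fb}
    (h : Over R1 T) {c : ι → K} {n : ι → ℕ} {β : ∀ i, Module.Basis (Fin (n i)) Fb1 (Fb i)}
    {b : (Σ i, Fin (n i)) → F} (hb : Adapted T c β b) (a : (Σ i, Fin (n i)) → F1)
    (ha : ∀ p, a p ∈ R1.O) (i : ι) :
    algebraMap K F (c i) * ∑ p, a p • b p ∈ (T.R i).O ∧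
      (T.R i).red (algebraMap K F (c i) * ∑ p, a p • b p) = ∑ j, R1.red (a ⟨i, j⟩) • β i j := by
  classical
  have h1 : algebraMap K F (c i) * ∑ p, a p • b p
      = ∑ p, algebraMap F1 F (a p) * (algebraMap K F (c i) * b p) := by
    rw [Finset.mul_sum]
    refine Finset.sum_congr rfl fun p _ => ?_
    rw [Algebra.smul_def]
    ring
  have h2 : ∀ p, algebraMap F1 F (a p) * (algebraMap K F (c i) * b p) ∈ (T.R i).O := fun p =>
    (T.R i).O.mul_mem _ _ (h.mem i _ (ha p)) (hb.mem i p)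
  rw [h1]
  refine ⟨sum_mem fun p _ => h2 p, ?_⟩
  rw [(T.R i).red_sum _ _ fun p _ => h2 p, Fintype.sum_sigma, Finset.sum_eq_single i]
  · refine Finset.sum_congr rfl fun j _ => ?_
    rw [(T.R i).red_mul (h.mem i _ (ha _)) (hb.mem i _), h.red i _ (ha _), hb.red_same,
      Algebra.smul_def]
  · intro i' _ hne
    refine Finset.sum_eq_zero fun j _ => ?_
    rw [(T.R i).red_mul (h.mem i _ (ha _)) (hb.mem i _), hb.red_other i ⟨i', j⟩ hne, mul_zero]
  · intro hi
    exact absurd (Finset.mem_univ i) hi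

/-- **(L2b)** a finite family of elements of a valued field, not all zero, has a member of maximal
valuation. -/
theorem exists_max {L : Type*} [Field L] (V : ValuationSubring L) {P : Type*} [Finite P]
    (a : P → L) (ha : ∃ p, a p ≠ 0) : ∃ p₀, a p₀ ≠ 0 ∧ ∀ p, a p / a p₀ ∈ V := by
  obtain ⟨p, hp⟩ := ha
  have : Nonempty P := ⟨p⟩
  obtain ⟨p₀, hp₀⟩ := Finite.exists_max (fun p => V.valuation (a p))
  have h0 : a p₀ ≠ 0 := by
    intro h0
    have h1 := hp₀ p
    simp only [h0, map_zero, le_zero_iff, map_eq_zero] at h1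
    exact hp h1
  refine ⟨p₀, h0, fun q => ?_⟩
  rw [← ValuationSubring.valuation_le_one_iff, map_div₀]
  exact div_le_one_of_le₀ (hp₀ q) zero_le

/-- common part of (L2c), (L2d). -/
theorem Adapted.Coord_aux [Fintype ι] {R1 : RedData K F1 k Fb1} {T : MultiRed K F k Fb}
    (h : Over R1 T) {c : ι → K} {n : ι → ℕ} {β : ∀ i, Module.Basis (Fin (n i)) Fb1 (Fb i)}
    {b : (Σ i, Fin (n i)) → F} (hb : Adapted T c β b) (a : (Σ i, Fin (n i)) → F1)
    (ha : ∀ p, a p ∈ R1.O) (p₀ : Σ i, Fin (n i)) (h1 : a p₀ = 1) :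
    (T.R p₀.1).red (algebraMap K F (c p₀.1) * ∑ p, a p • b p) ≠ 0 := by
  rw [(hb.red_sum h a ha p₀.1).2]
  intro h0
  have h2 := Fintype.linearIndependent_iff.mp (β p₀.1).linearIndependent _ h0 p₀.2
  have h3 : (⟨p₀.1, p₀.2⟩ : Σ i, Fin (n i)) = p₀ := rfl
  rw [h3, h1, R1.red_one] at h2
  exact one_ne_zero h2

/-- **(L2c)** an adapted family is linearly independent.
(If `∑ a p • b p = 0`, not all `a p = 0`: divide by `a p₀` of `exists_max`, reduce at `i = p₀.1` by
`Adapted.red_sum`: `0 = ∑ j, red (a ⟨i, j⟩ / a p₀) • β i j`, whose coefficient at `j = p₀.2` is `1`.) -/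
theorem Adapted.linearIndependent [Fintype ι] {R1 : RedData K F1 k Fb1} {T : MultiRed K F k Fb}
    (h : Over R1 T) {c : ι → K} {n : ι → ℕ} {β : ∀ i, Module.Basis (Fin (n i)) Fb1 (Fb i)}
    {b : (Σ i, Fin (n i)) → F} (hb : Adapted T c β b) : LinearIndependent F1 b := by
  rw [Fintype.linearIndependent_iff]
  intro a hsum
  by_contra hcon
  push Not at hcon
  obtain ⟨p₀, hp₀, hmax⟩ := exists_max R1.O a hcon
  apply hb.Coord_aux h (fun p => a p / a p₀) hmax p₀ (div_self hp₀)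
  have h1 : ∑ p, (a p / a p₀) • b p = (a p₀)⁻¹ • ∑ p, a p • b p := by
    rw [Finset.smul_sum]
    refine Finset.sum_congr rfl fun p _ => ?_
    rw [smul_smul, div_eq_inv_mul]
  rw [h1, hsum, smul_zero, mul_zero, RedData.red_zero]

/-- **(L2d)** the coordinates of a `c`-integral element are integral.
(If some `a p ∉ R1.O`, take `p₀` of `exists_max`; then `a p₀ ∉ R1.O`, `(a p₀)⁻¹` is in the maximal ideal,
`z / a p₀` reduces to `0` at all `i` (`Over.red`), contradiction as in (L2c).) -/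
theorem Adapted.coord_mem [Fintype ι] {R1 : RedData K F1 k Fb1} {T : MultiRed K F k Fb}
    (h : Over R1 T) {c : ι → K} {n : ι → ℕ} {β : ∀ i, Module.Basis (Fin (n i)) Fb1 (Fb i)}
    {b : (Σ i, Fin (n i)) → F} (hb : Adapted T c β b) (a : (Σ i, Fin (n i)) → F1)
    (hz : ∀ i, algebraMap K F (c i) * ∑ p, a p • b p ∈ (T.R i).O) (p : Σ i, Fin (n i)) :
    a p ∈ R1.O := by
  by_contra hp
  have hp0 : a p ≠ 0 := fun h0 => hp (h0 ▸ R1.O.zero_mem)
  obtain ⟨p₀, hp₀, hmax⟩ := exists_max R1.O a ⟨p, hp0⟩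
  have hnot : a p₀ ∉ R1.O := by
    intro hmem
    apply hp
    have := R1.O.mul_mem _ _ (hmax p) hmem
    rwa [div_mul_cancel₀ _ hp₀] at this
  have hinv : (a p₀)⁻¹ ∈ R1.O := (R1.O.mem_or_inv_mem (a p₀)).resolve_left hnot
  have hred : R1.red (a p₀)⁻¹ = 0 := by
    by_contra h1
    have := (R1.red_ne_zero_iff.mp h1).2.2
    rw [inv_inv] at this
    exact hnot this
  apply hb.Coord_aux h (fun p => a p / a p₀) hmax p₀ (div_self hp₀)
  have h1 : ∑ p, (a p / a p₀) • b p = (a p₀)⁻¹ • ∑ p, a p • b p := by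
    rw [Finset.smul_sum]
    refine Finset.sum_congr rfl fun p _ => ?_
    rw [smul_smul, div_eq_inv_mul]
  have h2 : algebraMap K F (c p₀.1) * ((a p₀)⁻¹ • ∑ p, a p • b p)
      = algebraMap F1 F (a p₀)⁻¹ * (algebraMap K F (c p₀.1) * ∑ p, a p • b p) := by
    rw [Algebra.smul_def]
    ring
  rw [h1, h2, (T.R p₀.1).red_mul (h.mem _ _ hinv) (hz p₀.1), h.red _ _ hinv, hred, map_zero,
    zero_mul]

end Fermat.Agent.S36.Norm
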