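import Fermat.Agent.S36.Norm.Defs
import Fermat.Agent.GAL.Hecke.PlacesAbove

/-!
# S36/Norm : the norm of a function which is regular outside the poles of `x1` is regular outside the poles of `x1`
-/

set_option autoImplicit false

noncomputable section

namespace Fermat.Agent.S36.Norm

open AlgebraicCurve Fermat.Agent.GAL Fermat.Agent.GAL.RED Fermat.Agent.DR.Abs Fermat.Agent.Lib.RR

/-- `DR.Abs.exists_mem_L_poleDiv_iff` without the hypothesis that the constant field is algebraically closed. -/
theorem RegNorm_exists_mem_L_poleDiv_iff {k Fb : Type*} [Field k] [Field Fb] [Algebra k Fb]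
    [IsFF k Fb] (x u : Fb) :
    (∃ a : ℕ, u ∈ riemannRochSpace (a • poleDiv (K := k) x)) ↔
      ∀ P : Place k Fb, 0 ≤ P.ord x → 0 ≤ P.ord u := by
  classical
  constructor
  · rintro ⟨a, ha⟩ P hP
    rw [mem_riemannRochSpace_iff] at ha
    rcases ha P with rfl | h
    · rw [P.ord_zero]
    · rwa [Finsupp.smul_apply, poleDiv_apply, max_eq_right (by omega), smul_zero, neg_zero] at h
  · intro hu
    refine ⟨∑ P ∈ (divOf (K := k) x).support, (P.ord u).natAbs, ?_⟩
    rw [mem_riemannRochSpace_iff]
    intro P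
    right
    set a := ∑ P ∈ (divOf (K := k) x).support, (P.ord u).natAbs with ha
    rw [Finsupp.smul_apply, poleDiv_apply, nsmul_eq_mul]
    by_cases hP : P.ord x < 0
    · have hmem : P ∈ (divOf (K := k) x).support := by
        rw [Finsupp.mem_support_iff, divOf_apply]
        exact ne_of_lt hP
      have h1 : (P.ord u).natAbs ≤ a :=
        Finset.single_le_sum (f := fun Q : Place k Fb => (Q.ord u).natAbs)
          (fun _ _ => Nat.zero_le _) hmem
      have h3 : (1 : ℤ) ≤ max (-(P.ord x)) 0 := le_max_of_le_left (by omega)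
      have h4 : (a : ℤ) * 1 ≤ (a : ℤ) * max (-(P.ord x)) 0 :=
        mul_le_mul_of_nonneg_left h3 (Nat.cast_nonneg _)
      have h5 : -(P.ord u) ≤ ((P.ord u).natAbs : ℤ) := by
        rw [Int.natCast_natAbs]
        exact neg_le_abs _
      have h6 : ((P.ord u).natAbs : ℤ) ≤ (a : ℤ) := by exact_mod_cast h1
      omega
    · have h1 : 0 ≤ P.ord u := hu P (not_lt.mp hP)
      have h2 : (0 : ℤ) ≤ (a : ℤ) * max (-(P.ord x)) 0 :=
        mul_nonneg (Nat.cast_nonneg _) (le_max_right _ _)
      omega

variable {K F F1 : Type*} [Field K] [Field F] [Algebra K F] [Field F1] [Algebra K F1] [Algebra F1 F]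
  [IsScalarTower K F1 F] [FiniteDimensional F1 F] [Algebra.IsSeparable F1 F] [IsFF K F] [IsFF K F1]

/-- By `DR.Abs.exists_mem_L_poleDiv_iff` (`DR/Abs/Bipole.lean`) the statement is about regularity at places.
Let `P` be a place of `F1` at which `x1` is regular.  `Hecke.placesAbove_key P` gives the places `pl i`
above `P`; `x1` is regular at `pl i` (`Place.mem_restrict_iff`), so `g ∈ pl i` for all `i`, so `g` is integral
over `O_P`; then `Algebra.norm F1 g` is integral over `O_P` (`Algebra.isIntegral_norm`), hence in `O_P`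
(`IsIntegrallyClosed.isIntegral_iff`); compare `Hecke.ord_norm_eq_zero`.
(`f ∈ P.toValuationSubring ↔ 0 ≤ P.ord f` : `Lib.PlaceEval.mem_iff`.) -/
theorem norm_mem_L (x1 : F1) {g : F}
    (hg : ∃ a : ℕ, g ∈ riemannRochSpace (a • poleDiv (K := K) (algebraMap F1 F x1))) :
    ∃ a : ℕ, Algebra.norm F1 g ∈ riemannRochSpace (a • poleDiv (K := K) x1) := by
  rw [RegNorm_exists_mem_L_poleDiv_iff] at hg ⊢
  intro P hP
  obtain ⟨ι, _, _, pl, ϖ, -, -, -, hint, hrestr⟩ := Hecke.placesAbove_key (F' := F) P
  have hx1 : x1 ∈ P.toValuationSubring := by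
    rcases eq_or_ne x1 0 with rfl | h0
    · exact zero_mem _
    · exact Fermat.Agent.S24.mem_of_ord_nonneg P h0 hP
  have h1 : IsIntegral P.toValuationSubring g := hint g fun i => by
    rcases eq_or_ne g 0 with rfl | hg0
    · exact zero_mem _
    refine Fermat.Agent.S24.mem_of_ord_nonneg _ hg0 (hg (pl i) ?_)
    have h2 : x1 ∈ ((pl i).restrict F1).toValuationSubring := by rw [hrestr i]; exact hx1
    exact Fermat.Agent.S24.ord_nonneg_of_mem _ ((Place.mem_restrict_iff (pl i)).1 h2)
  have h3 : IsIntegral P.toValuationSubring (Algebra.norm F1 g) := Algebra.isIntegral_norm F1 h1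
  obtain ⟨y, hy⟩ := IsIntegrallyClosed.isIntegral_iff.mp h3
  rw [← hy]
  exact Fermat.Agent.S24.ord_nonneg_of_mem P y.2

end Fermat.Agent.S36.Norm
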