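import Fermat.Agent.S36.Norm.RedNorm

/-!
# S36/Norm (N3a): the reduction of the norm of a section
-/

set_option autoImplicit false
set_option linter.unusedSectionVars false

noncomputable section

namespace Fermat.Agent.S36.Norm

open AlgebraicCurve Fermat.Agent.GAL Fermat.Agent.GAL.RED Fermat.Agent.DR.Abs Fermat.Agent.Lib.RR

variable {K F k : Type*} [Field K] [Field F] [Algebra K F] [Field k] [IsAlgClosed k] {ι : Type*}
  {Fb : ι → Type*} [∀ i, Field (Fb i)] [∀ i, Algebra k (Fb i)]
  {F1 : Type*} [Field F1] [Algebra K F1] [Algebra F1 F] [IsScalarTower K F1 F]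
  [FiniteDimensional F1 F]
  {ι1 : Type*} {Fb1 : ι1 → Type*} [∀ a, Field (Fb1 a)] [∀ a, Algebra k (Fb1 a)]
  [∀ a, IsFF k (Fb1 a)]
  {J : ι1 → Type*} [∀ a, Fintype (J a)] {s : ∀ a, J a → ι} [∀ a j, Algebra (Fb1 a) (Fb (s a j))]
  {T1 : MultiRed K F1 k Fb1} {T : MultiRed K F k Fb} {m : ℕ}

/-- Independence passes to subfamilies (extend `u` by `0` and `c` by `1` outside the range of `s`). -/
theorem sep_comp (hsep : T.Sep) {J' : Type*} (s' : J' → ι) (hs : Function.Injective s') :
    (T.comp s').Sep := by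
  classical
  intro u c hc
  let u' : ∀ i, Fb i := fun i =>
    if h : ∃ j, s' j = i then h.choose_spec ▸ u h.choose else 0
  let c' : ι → K := fun i => if h : ∃ j, s' j = i then c h.choose else 1
  have hcast : ∀ (j j' : J') (e : s' j' = s' j), (e ▸ u j' : Fb (s' j)) = u j := by
    intro j j' e
    obtain rfl := hs e
    rfl
  have hu' : ∀ j, u' (s' j) = u j := by
    intro j
    have h : ∃ j', s' j' = s' j := ⟨j, rfl⟩
    simp only [u', dif_pos h]
    exact hcast j _ _
  have hc' : ∀ j, c' (s' j) = c j := by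
    intro j
    have h : ∃ j', s' j' = s' j := ⟨j, rfl⟩
    simp only [c', dif_pos h]
    rw [hs h.choose_spec]
  obtain ⟨h, hh⟩ := hsep u' c' (by
    intro i
    simp only [c']
    split_ifs with h
    · exact hc _
    · exact one_ne_zero)
  refine ⟨h, fun j => ?_⟩
  have := hh (s' j)
  rw [hc', hu'] at this
  exact this

/-- `red_norm` for a cover, all scalings `1`. -/
theorem Cover.red_norm (hC : Cover s T1 T) (hsep : T.Sep) {y : F} (hy : y ∈ T.O) :
    Algebra.norm F1 y ∈ T1.O ∧ T1.red (Algebra.norm F1 y) = normFam s (T.red y) := by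
  have key : ∀ a, Algebra.norm F1 y ∈ (T1.R a).O ∧
      (T1.R a).red (Algebra.norm F1 y) = normFam s (T.red y) a := by
    intro a
    have h1 := Fermat.Agent.S36.Norm.red_norm (hC.ov a) (sep_comp hsep (s a) (hC.inj a))
      (fun _ => 1) (fun _ => one_ne_zero) y (by
        intro j
        rw [map_one, one_mul]
        exact hy (s a j))
    simp only [one_pow, Finset.prod_const_one, map_one, one_mul] at h1
    exact h1
  exact ⟨fun a => (key a).1, funext fun a => (key a).2⟩

/-- **(N3a)**  If `red f = 1` and `Norm f = h ^ m`, then for every integral `y`, `Norm y * h` is integral with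
reduction `η_a • ∏_{i ↦ a} Norm (red_i y)`, `η_a ∈ k^×` independent of `y`.

`Cover.red_norm` for `f` (`f ∈ T.O` by `T.mem_of_red_ne_zero`): `T1.red (Norm f) = normFam s 1 = 1` (`map_one`,
`Finset.prod_const_one`).  So `t a := red_a h` satisfies `t a ^ m = 1` (`RedData.red_pow`), hence `t a = η a` is a
nonzero constant (`S36.Abs.exists_const_of_pow_eq_one`), `h ∈ O_a` (`mem_of_red_ne_zero`).
`T1.red_mul`, `Cover.red_norm` for `y`, `Algebra.smul_def`. -/
theorem exists_eta (hC : Cover s T1 T) (hsep : T.Sep) (hm : 0 < m) {f : F} (hf : T.red f = 1)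
    {h : F1} (hh : h ^ m = Algebra.norm F1 f) :
    ∃ η : ι1 → k, (∀ a, η a ≠ 0) ∧ ∀ y ∈ T.O, Algebra.norm F1 y * h ∈ T1.O ∧
      T1.red (Algebra.norm F1 y * h) = fun a => η a • normFam s (T.red y) a := by
  have hfO : f ∈ T.O := T.mem_of_red_ne_zero (fun i => by rw [hf]; exact one_ne_zero)
  obtain ⟨-, h2⟩ := hC.red_norm hsep hfO
  have h3 : T1.red h ^ m = 1 := by
    rw [← T1.red_pow, hh, h2, hf]
    funext a
    simp [normFam]
  have hex : ∀ a, ∃ c : k, c ^ m = 1 ∧ T1.red h a = algebraMap k (Fb1 a) c := fun a =>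
    Fermat.Agent.S36.Abs.exists_const_of_pow_eq_one hm (congrFun h3 a)
  choose η hη hηh using hex
  have hη0 : ∀ a, η a ≠ 0 := by
    intro a h0
    have := hη a
    rw [h0, zero_pow hm.ne'] at this
    exact zero_ne_one this
  have hhO : h ∈ T1.O := T1.mem_of_red_ne_zero (fun a => by
    rw [hηh a]
    exact (map_ne_zero _).2 (hη0 a))
  refine ⟨η, hη0, fun y hy => ?_⟩
  obtain ⟨h4, h5⟩ := hC.red_norm hsep hy
  refine ⟨T1.O.mul_mem h4 hhO, ?_⟩
  rw [T1.red_mul h4 hhO, h5]
  funext a
  rw [Pi.mul_apply, hηh a, Algebra.smul_def, mul_comm]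

end Fermat.Agent.S36.Norm
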