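import Fermat.Agent.S36.Norm.Main
import Fermat.Agent.GAL.Hecke.HeckeBasic

/-!
# S36/Norm : the relations (A), (B) for a subfield given by an algebra homomorphism `φ : F1 →ₐ[K] F`

`CoverAlong φ s T1 T` is `Cover s T1 T` for the algebra structure `algebraAlong φ`; the hypothesis on the norm is
`KV.map (Units.map (normAlong φ)) _ κ = 0` (as in `DR.alphaKV`, `S36.betaKV`).
-/

set_option autoImplicit false
set_option linter.style.haveILetI false

noncomputable section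

namespace Fermat.Agent.S36.Norm

open AlgebraicCurve Fermat.Agent.GAL Fermat.Agent.GAL.RED Fermat.Agent.DR.Abs Fermat.Agent.Lib.RR
open Fermat.Agent.S36.Abs

variable {K F k : Type*} [Field K] [Field F] [Algebra K F] [Field k] [IsAlgClosed k]
  {S J J' : Type*} [Fintype S] [Fintype J] [Fintype J'] [DecidableEq S]
  {Fb : Comp S J' → Type*} [∀ i, Field (Fb i)] [∀ i, Algebra k (Fb i)] [∀ i, IsFF k (Fb i)]
  [IsFF K F] [IsAlgClosed K]
  {F1 : Type*} [Field F1] [Algebra K F1] [IsFF K F1] [CharZero F1]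
  {ι1 : Type*} {Fb1 : ι1 → Type*} [∀ a, Field (Fb1 a)] [∀ a, Algebra k (Fb1 a)]
  [∀ a, IsFF k (Fb1 a)]
  {J1 : ι1 → Type*} [∀ a, Fintype (J1 a)] {s : ∀ a, J1 a → Comp S J'}
  [∀ a j, Algebra (Fb1 a) (Fb (s a j))]
  {T1 : MultiRed K F1 k Fb1} {T : MultiRed K F k Fb} {m : ℕ}
  {N1 : NodeData k Fb1 (Nd1 S)} {N : NodeData k Fb (Nd S J)} {a₀ : ℕ}

/-- `Over` for the algebra structure given by `φ`. -/
def OverAlong {ι : Type*} [Fintype ι] {Fb : ι → Type*} [∀ i, Field (Fb i)] [∀ i, Algebra k (Fb i)]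
    {Fb1 : Type*} [Field Fb1] [Algebra k Fb1] [∀ i, Algebra Fb1 (Fb i)] (φ : F1 →ₐ[K] F)
    (R1 : RedData K F1 k Fb1) (T : MultiRed K F k Fb) : Prop :=
  letI := algebraAlong φ
  Over R1 T

/-- `Cover` for the algebra structure given by `φ`. -/
def CoverAlong (φ : F1 →ₐ[K] F) (s : ∀ a, J1 a → Comp S J') [∀ a j, Algebra (Fb1 a) (Fb (s a j))]
    (T1 : MultiRed K F1 k Fb1) (T : MultiRed K F k Fb) : Prop :=
  letI := algebraAlong φ
  Cover s T1 T

theorem exists_pow_eq_norm_of_map_eq_zero (φ : F1 →ₐ[K] F)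
    (hK : ∀ u ∈ kummerUnits K F m, Units.map (normAlong φ) u ∈ kummerUnits K F1 m)
    {κ : KV K F m} (hκ : KV.map (Units.map (normAlong φ)) hK κ = 0) (f : kummerUnits K F m)
    (hf : KV.mk f = κ) : ∃ h1 : F1, h1 ^ m = normAlong φ ((f : Fˣ) : F) := by
  subst hf
  rw [KV.map_mk, KV.mk_eq_zero_iff] at hκ
  obtain ⟨y, hy⟩ := hκ
  refine ⟨(y : F1), ?_⟩
  have := congrArg (fun u : F1ˣ => (u : F1)) hy
  simpa using this

theorem relA_along (q : ℕ) (r : J → ℕ) (φ : F1 →ₐ[K] F) (hfin : FiniteAlong K φ) {x1 : F1}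
    (h : IsPreNodal T (φ x1) N a₀) (hm : (m : k) ≠ 0) (hC : CoverAlong φ s T1 T)
    (hE1 : NodesGlued T1 x1 N1) (hNC : NodeCover s N1 N piA (rA q r)) (hS1 : Shape1 N1)
    {κ : KV K F m} {δ : Nd S J → k} (hδ : IsDelta T (φ x1) N m κ δ)
    (hK : ∀ u ∈ kummerUnits K F m, Units.map (normAlong φ) u ∈ kummerUnits K F1 m)
    (hκ : KV.map (Units.map (normAlong φ)) hK κ = 0) : RelA q r δ := by
  letI := algebraAlong φ
  haveI := isScalarTower_along φ
  haveI : FiniteDimensional F1 F := hfin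
  haveI : Algebra.IsSeparable F1 F := inferInstance
  exact relA_of_cover (F1 := F1) q r (x1 := x1) h hm hC hE1 hNC hS1 hδ
    (fun f hf => exists_pow_eq_norm_of_map_eq_zero φ hK hκ f hf)

theorem relB_along (q : ℕ) (r : J → ℕ) (φ : F1 →ₐ[K] F) (hfin : FiniteAlong K φ) {x1 : F1}
    (h : IsPreNodal T (φ x1) N a₀) (hm : (m : k) ≠ 0) (hC : CoverAlong φ s T1 T)
    (hE1 : NodesGlued T1 x1 N1) (hNC : NodeCover s N1 N piB (rB q r)) (hS1 : Shape1 N1)
    {κ : KV K F m} {δ : Nd S J → k} (hδ : IsDelta T (φ x1) N m κ δ)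
    (hK : ∀ u ∈ kummerUnits K F m, Units.map (normAlong φ) u ∈ kummerUnits K F1 m)
    (hκ : KV.map (Units.map (normAlong φ)) hK κ = 0) : RelB q r δ := by
  letI := algebraAlong φ
  haveI := isScalarTower_along φ
  haveI : FiniteDimensional F1 F := hfin
  haveI : Algebra.IsSeparable F1 F := inferInstance
  exact relB_of_cover (F1 := F1) q r (x1 := x1) h hm hC hE1 hNC hS1 hδ
    (fun f hf => exists_pow_eq_norm_of_map_eq_zero φ hK hκ f hf)

end Fermat.Agent.S36.Norm
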