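import Fermat.Agent.S36.Norm.Defs
import Fermat.Agent.GAL.RED.Basic

/-!
# S36/Norm (N1), part 1: adapted families (see the plan below; this file: `Adapted`, `exists_adapted`)

`F / F1` finite, `R1` a reduction of `F1`, `T` the family of all the reductions of `F` above `R1`
(`Over R1 T` : `∑ [Fb i : Fb1] = [F : F1]`), `T.Sep` (independence).  Then for `y : F` and scalings
`c i : K` with `c i * y ∈ O i`:

  `red₁ ((∏ c i ^ n i) * N_{F/F1} y) = ∏ i, N_{Fb i / Fb1} (red_i (c i * y))`,   `n i = [Fb i : Fb1]`.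

Proof.  Choose bases `β i` of `Fb i / Fb1` and (by `Sep`) a family `b ⟨i, j⟩ : F` which is *adapted* to `c`
(`c i * b ⟨i, j⟩` reduces to `β i j` at `i`, `c i' * b ⟨i, j⟩` reduces to `0` at `i' ≠ i`) and such that
`p ↦ c p.1 * b p` is adapted to `1`.  An adapted family is a basis of `F / F1`, and the coordinates of a
`c`-integral element are in `R1.O`, with the expected reductions.  Hence the matrix `m` of
`(y * (c p.1 * b p))_p` in the basis `b` has entries in `R1.O` and reduces to the block diagonal matrix of the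
multiplications by `u i = red_i (c i * y)`;  `leftMulMatrix b y = m * diag (c p.1)⁻¹`.
-/

set_option autoImplicit false

noncomputable section

namespace Fermat.Agent.S36.Norm

open AlgebraicCurve Fermat.Agent.GAL Fermat.Agent.GAL.RED Fermat.Agent.DR.Abs

variable {K F k : Type*} [Field K] [Field F] [Algebra K F] [Field k] {ι : Type*}
  {Fb : ι → Type*} [∀ i, Field (Fb i)] [∀ i, Algebra k (Fb i)]
  {F1 : Type*} [Field F1] [Algebra K F1] [Algebra F1 F] [IsScalarTower K F1 F]
  {Fb1 : Type*} [Field Fb1] [Algebra k Fb1] [∀ i, Algebra Fb1 (Fb i)]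

/-- The family `b` is adapted to the scalings `c` and the bases `β i` of the residue fields. -/
structure Adapted (T : MultiRed K F k Fb) (c : ι → K) {n : ι → ℕ}
    (β : ∀ i, Module.Basis (Fin (n i)) Fb1 (Fb i)) (b : (Σ i, Fin (n i)) → F) : Prop where
  mem : ∀ i p, algebraMap K F (c i) * b p ∈ (T.R i).O
  red_same : ∀ i j, (T.R i).red (algebraMap K F (c i) * b ⟨i, j⟩) = β i j
  red_other : ∀ i p, p.1 ≠ i → (T.R i).red (algebraMap K F (c i) * b p) = 0

theorem Adapted_aux (T : MultiRed K F k Fb) (i' : ι) {d e : K} {h : F} (hd : d ≠ 0)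
    (hed : e / d ∈ T.A) (hm : d • h ∈ (T.R i').O) :
    algebraMap K F e * h ∈ (T.R i').O ∧
      ((T.R i').red (d • h) = 0 → (T.R i').red (algebraMap K F e * h) = 0) := by
  have h1 : algebraMap K F e * h = (e / d) • (d • h) := by
    rw [smul_smul, div_mul_cancel₀ _ hd, Algebra.smul_def]
  have h2 : e / d ∈ (T.R i').A := (T.mem_A_iff i').2 hed
  rw [h1]
  refine ⟨(T.R i').smul_mem h2 hm, fun h0 => ?_⟩
  rw [(T.R i').red_smul h2 hm, h0, smul_zero]

/-- **(L1)** existence of adapted families.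

Proof: fix `p = ⟨i, j⟩`.  For `i' ≠ i` let `d i' = c i'` if `c i / c i' ∈ T.A`, and `d i' = c i` otherwise
(then `c i' / c i ∈ T.A`, valuation ring); `d i = c i`.  `T.Sep` applied to `u = Pi.single i (β i j)` and `d`
gives `h = b p` with `d i' • h ∈ O i'` of residue `0` for `i' ≠ i`; both `c i' * h` and `c i * h` are
`A`-multiples of `d i' • h`, hence in `O i'` with residue `0` (`RedData.red_smul`, `smul_mem`,
`T.mem_A_iff`). -/
theorem exists_adapted [DecidableEq ι] (T : MultiRed K F k Fb) (hsep : T.Sep) (c : ι → K)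
    (hc : ∀ i, c i ≠ 0) {n : ι → ℕ} (β : ∀ i, Module.Basis (Fin (n i)) Fb1 (Fb i)) :
    ∃ b : (Σ i, Fin (n i)) → F, Adapted T c β b ∧
      Adapted T (fun _ => 1) β (fun p => algebraMap K F (c p.1) * b p) := by
  have key : ∀ p : Σ i, Fin (n i), ∃ h : F,
      (∀ i', algebraMap K F (c i') * h ∈ (T.R i').O ∧
        algebraMap K F (c p.1) * h ∈ (T.R i').O) ∧
      (T.R p.1).red (algebraMap K F (c p.1) * h) = β p.1 p.2 ∧
      ∀ i', p.1 ≠ i' → (T.R i').red (algebraMap K F (c i') * h) = 0 ∧
        (T.R i').red (algebraMap K F (c p.1) * h) = 0 := by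
    classical
    rintro ⟨i, j⟩
    set d : ι → K := fun i' => if c i / c i' ∈ T.A then c i' else c i with hd
    have hd0 : ∀ i', d i' ≠ 0 := by
      intro i'
      simp only [hd]
      split_ifs
      exacts [hc i', hc i]
    obtain ⟨h, hh⟩ := hsep (Pi.single i (β i j)) d hd0
    have h1 : ∀ i', c i' / d i' ∈ T.A ∧ c i / d i' ∈ T.A := by
      intro i'
      simp only [hd]
      split_ifs with hA
      · exact ⟨by rw [div_self (hc i')]; exact T.A.one_mem, hA⟩
      · refine ⟨?_, by rw [div_self (hc i)]; exact T.A.one_mem⟩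
        have := (T.A.mem_or_inv_mem (c i / c i')).resolve_left hA
        rwa [inv_div] at this
    have hdi : d i = c i := by simp [hd]
    refine ⟨h, fun i' => ⟨(Adapted_aux T i' (hd0 i') (h1 i').1 (hh i').1).1,
      (Adapted_aux T i' (hd0 i') (h1 i').2 (hh i').1).1⟩, ?_, ?_⟩
    · have := (hh i).2
      rw [hdi, Pi.single_eq_same, Algebra.smul_def] at this
      exact this
    · intro i' hne
      have hne' : i ≠ i' := hne
      have h0 : (T.R i').red (d i' • h) = 0 := by
        rw [(hh i').2, Pi.single_eq_of_ne (Ne.symm hne')]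
      exact ⟨(Adapted_aux T i' (hd0 i') (h1 i').1 (hh i').1).2 h0,
        (Adapted_aux T i' (hd0 i') (h1 i').2 (hh i').1).2 h0⟩
  choose b hb using key
  refine ⟨b, ⟨fun i p => ((hb p).1 i).1, fun i j => (hb ⟨i, j⟩).2.1,
    fun i p hp => ((hb p).2.2 i hp).1⟩,
    ⟨fun i p => ?_, fun i j => ?_, fun i p hp => ?_⟩⟩
  · rw [map_one, one_mul]
    exact ((hb p).1 i).2
  · rw [map_one, one_mul]
    exact (hb ⟨i, j⟩).2.1
  · rw [map_one, one_mul]
    exact ((hb p).2.2 i hp).2

end Fermat.Agent.S36.Norm
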