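import Fermat.Agent.S36.Abs.Symm
import Fermat.Agent.S36.Abs.Genus

/-!
# S36/Norm : norm functoriality of the gluing cochain (block NORM = FIX-1 of the S36 plan).  Definitions.

On top of block ABS (`S36/Abs/Delta.lean`: `IsDelta T x N m κ δ`, `cob`, `Kall`; `S36/Abs/Symm.lean`: `IsSymm`;
`S36/Abs/Genus.lean`: `NodesGlued`).

Setting: `F1 ⊆ F` function fields over `K`, `T1 : MultiRed K F1 k Fb1`, `T : MultiRed K F k Fb` families of reductions
(the components of the special fibres), `N1`, `N` families of nodes.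

* `T.comp s` : a subfamily;
* `Over R1 T` : `T` is the family of all the reductions of `F` above the reduction `R1` of `F1`;
* `Cover s T1 T` : for every component `a` of `T1`, `(s a j)_j` are the components of `T` above `a`;
* `normFam s u` : the family of the norms of a family of functions on the components;
* `UnitsAt N u` : `u` is a unit at all the branches of all the nodes;
* `NodeCover s N1 N πE r` : the value of `normFam s u` at a branch of a node `e1` of `N1` is the product of the
  values of `u` at the corresponding branches of the nodes `e ↦ e1`, to the power `r e` (ramification index);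
* `Comp S J`, `Nd S J`, `Nd1 S` : the shape of the dual graphs for `X₀(q² M')`, `X₀(q M')`.
-/

set_option autoImplicit false

noncomputable section

namespace Fermat.Agent.S36.Norm

open AlgebraicCurve Fermat.Agent.GAL Fermat.Agent.GAL.RED Fermat.Agent.DR.Abs

variable {K F k : Type*} [Field K] [Field F] [Algebra K F] [Field k] {ι : Type*}
  {Fb : ι → Type*} [∀ i, Field (Fb i)] [∀ i, Algebra k (Fb i)] {E : Type*}

/-- `u` is regular and does not vanish at all the branches of all the nodes. -/
def UnitsAt (N : NodeData k Fb E) (u : ∀ i, Fb i) : Prop :=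
  ∀ e, (0 ≤ (N.p₁ e).ord (u (N.i₁ e)) ∧ ev (N.p₁ e) (u (N.i₁ e)) ≠ 0) ∧
    (0 ≤ (N.p₂ e).ord (u (N.i₂ e)) ∧ ev (N.p₂ e) (u (N.i₂ e)) ≠ 0)

/-- A subfamily of a family of reductions. -/
def _root_.Fermat.Agent.DR.Abs.MultiRed.comp (T : MultiRed K F k Fb) {J : Type*} (s : J → ι) :
    MultiRed K F k (fun j => Fb (s j)) where
  R := fun j => T.R (s j)
  A := T.A
  redA := T.redA
  A_eq := fun j => T.A_eq (s j)
  redA_eq := fun j => T.redA_eq (s j)
  redA_surj := T.redA_surj

@[simp] theorem comp_R (T : MultiRed K F k Fb) {J : Type*} (s : J → ι) (j : J) :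
    (T.comp s).R j = T.R (s j) := rfl

section Over

variable {F1 : Type*} [Field F1] [Algebra K F1] [Algebra F1 F]

/-- The members of `T` are extensions to `F` of the reduction `R1` of the subfield `F1`, and
`∑ f_i = [F : F1]` (so that they are all the extensions, `e_i = 1`, no defect). -/
structure Over {Fb1 : Type*} [Field Fb1] [Algebra k Fb1] [Fintype ι] [∀ i, Algebra Fb1 (Fb i)]
    (R1 : RedData K F1 k Fb1) (T : MultiRed K F k Fb) : Prop where
  mem : ∀ i (y : F1), y ∈ R1.O → algebraMap F1 F y ∈ (T.R i).O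
  red : ∀ i (y : F1), y ∈ R1.O →
    (T.R i).red (algebraMap F1 F y) = algebraMap Fb1 (Fb i) (R1.red y)
  fin : ∀ i, Module.Finite Fb1 (Fb i)
  sum : ∑ i, Module.finrank Fb1 (Fb i) = Module.finrank F1 F

variable {ι1 : Type*} {Fb1 : ι1 → Type*} [∀ a, Field (Fb1 a)] [∀ a, Algebra k (Fb1 a)]
  {J : ι1 → Type*} [∀ a, Fintype (J a)]

/-- The family of the norms: `(N u)_a = ∏_{i ↦ a} N_{Fb i / Fb1 a} (u i)`. -/
def normFam (s : ∀ a, J a → ι) [∀ a j, Algebra (Fb1 a) (Fb (s a j))] (u : ∀ i, Fb i) :
    ∀ a, Fb1 a :=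
  fun a => ∏ j, Algebra.norm (Fb1 a) (u (s a j))

/-- `T` covers `T1`: for every component `a` of `T1`, the components `s a j`, `j : J a`, are the
components of `T` above `a`. -/
structure Cover (s : ∀ a, J a → ι) [∀ a j, Algebra (Fb1 a) (Fb (s a j))]
    (T1 : MultiRed K F1 k Fb1) (T : MultiRed K F k Fb) : Prop where
  inj : ∀ a, Function.Injective (s a)
  ov : ∀ a, Over (T1.R a) (T.comp (s a))

/-- The nodes of `N` cover the nodes of `N1` (`πE` on nodes, `r e` the common ramification index of the
two branches): the value of a norm at a branch of a node is the product of the values at the branches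
above it. -/
structure NodeCover {E1 : Type*} [Fintype E] [DecidableEq E1] (s : ∀ a, J a → ι)
    [∀ a j, Algebra (Fb1 a) (Fb (s a j))] (N1 : NodeData k Fb1 E1) (N : NodeData k Fb E)
    (πE : E → E1) (r : E → ℕ) : Prop where
  ev₁ : ∀ u : ∀ i, Fb i, UnitsAt N u → ∀ e1, ev (N1.p₁ e1) (normFam s u (N1.i₁ e1)) =
    ∏ e with πE e = e1, ev (N.p₁ e) (u (N.i₁ e)) ^ r e
  ev₂ : ∀ u : ∀ i, Fb i, UnitsAt N u → ∀ e1, ev (N1.p₂ e1) (normFam s u (N1.i₂ e1)) =
    ∏ e with πE e = e1, ev (N.p₂ e) (u (N.i₂ e)) ^ r e

end Over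

/-! ### The shape of the dual graph of `X₀(q² M')` -/

/-- The components: `C_∞`, `C_0`, the middle components `MID_j`, the horizontal components `H_e`
(`e` a supersingular point). -/
inductive Comp (S J : Type*)
  | inf : Comp S J
  | zero : Comp S J
  | mid (j : J) : Comp S J
  | hor (e : S) : Comp S J
  deriving DecidableEq, Fintype

/-- The nodes: `H_e ∩ C_∞`, `H_e ∩ C_0`, `H_e ∩ MID_j`. -/
inductive Nd (S J : Type*)
  | inf (e : S) : Nd S J
  | zero (e : S) : Nd S J
  | mid (e : S) (j : J) : Nd S J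
  deriving DecidableEq, Fintype

/-- The nodes of the model of `X₀(q M')` with the components `C_∞'`, `C_0'`, `l_e`:
`l_e ∩ C_∞'`, `l_e ∩ C_0'`. -/
inductive Nd1 (S : Type*)
  | inf (e : S) : Nd1 S
  | zero (e : S) : Nd1 S
  deriving DecidableEq, Fintype

end Fermat.Agent.S36.Norm
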