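import Fermat.Agent.S36.Norm.Defs

/-!
# S36/Norm (N4): the graph algebra

The dual graph of the stable fibre of `X₀(q² M')`: vertices `Comp S J`, edges `Nd S J`.
The two degeneracy maps to `X₀(q M')` map the nodes to the nodes `Nd1 S` by `piA`, `piB`, with the ramification
indices `rA q r`, `rB q r` (`r j` the ramification index of `MID_j → C'` at the supersingular points,
`∑ r j = q - 1`).
-/

set_option autoImplicit false

namespace Fermat.Agent.S36.Norm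

variable {S J : Type*}

/-- `π_A` on nodes. -/
def piA : Nd S J → Nd1 S
  | .inf e => .inf e
  | .zero e => .zero e
  | .mid e _ => .inf e

/-- `π_B` on nodes. -/
def piB : Nd S J → Nd1 S
  | .inf e => .inf e
  | .zero e => .zero e
  | .mid e _ => .zero e

/-- the ramification indices of `π_A` at the nodes. -/
def rA (q : ℕ) (r : J → ℕ) : Nd S J → ℕ
  | .inf _ => 1
  | .zero _ => q
  | .mid _ j => r j

/-- the ramification indices of `π_B` at the nodes. -/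
def rB (q : ℕ) (r : J → ℕ) : Nd S J → ℕ
  | .inf _ => q
  | .zero _ => 1
  | .mid _ j => r j

theorem graph_mid_injective (e : S) : Function.Injective (fun j : J => (Nd.mid e j : Nd S J)) := by
  intro j j' h
  simpa using h

section prod

variable [Fintype S] [Fintype J] [DecidableEq S] {M : Type*} [CommMonoid M] (g : Nd S J → M)

/-- (the filter is `{.inf e} ∪ image (.mid e) univ`.) -/
theorem prod_piA_inf (e : S) :
    ∏ n with piA n = Nd1.inf e, g n = g (.inf e) * ∏ j, g (.mid e j) := by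
  have h : Finset.filter (fun n : Nd S J => piA n = Nd1.inf e) Finset.univ =
      Finset.cons (.inf e) (Finset.univ.map ⟨_, graph_mid_injective e⟩) (by simp) := by
    ext n
    cases n <;> simp [piA, eq_comm]
  rw [h, Finset.prod_cons, Finset.prod_map]
  rfl

theorem prod_piA_zero (e : S) : ∏ n with piA n = Nd1.zero e, g n = g (.zero e) := by
  have h : Finset.filter (fun n : Nd S J => piA n = Nd1.zero e) Finset.univ = {.zero e} := by
    ext n
    cases n <;> simp [piA, eq_comm]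
  rw [h, Finset.prod_singleton]

theorem prod_piB_inf (e : S) : ∏ n with piB n = Nd1.inf e, g n = g (.inf e) := by
  have h : Finset.filter (fun n : Nd S J => piB n = Nd1.inf e) Finset.univ = {.inf e} := by
    ext n
    cases n <;> simp [piB, eq_comm]
  rw [h, Finset.prod_singleton]

theorem prod_piB_zero (e : S) :
    ∏ n with piB n = Nd1.zero e, g n = g (.zero e) * ∏ j, g (.mid e j) := by
  have h : Finset.filter (fun n : Nd S J => piB n = Nd1.zero e) Finset.univ =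
      Finset.cons (.zero e) (Finset.univ.map ⟨_, graph_mid_injective e⟩) (by simp) := by
    ext n
    cases n <;> simp [piB, eq_comm]
  rw [h, Finset.prod_cons, Finset.prod_map]
  rfl

end prod

theorem graph_key {k : Type*} [Field k] (q : ℕ) (hq : 1 ≤ q) (a z P c₁ c₂ : k) (ha : a ≠ 0)
    (hc₁ : c₁ ≠ 0) (hc₂ : c₂ ≠ 0) (hA : a * P = c₁ * z ^ q) (hB : z * P = c₂ * a ^ q) :
    a ^ (q ^ 2 - 1) = P ^ (q + 1) / (c₁ * c₂ ^ q) := by
  rw [eq_div_iff (mul_ne_zero hc₁ (pow_ne_zero _ hc₂))]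
  apply mul_right_cancel₀ ha
  have h1 : a ^ (q ^ 2 - 1) * a = a ^ (q * q) := by
    rw [← pow_succ, ← sq, Nat.sub_add_cancel (Nat.one_le_pow _ _ hq)]
  calc a ^ (q ^ 2 - 1) * (c₁ * c₂ ^ q) * a = c₁ * (c₂ ^ q * (a ^ (q ^ 2 - 1) * a)) := by ring
    _ = c₁ * (c₂ * a ^ q) ^ q := by rw [h1, mul_pow, ← pow_mul]
    _ = (c₁ * z ^ q) * P ^ q := by rw [← hB, mul_pow]; ring
    _ = P ^ (q + 1) * a := by rw [← hA]; ring

/-- **(N4)**  Fix `j₀`, `d₀ e := d e j₀`, `Θ := ∏ j, θ j₀ j ^ r j`; then `∏ j, d e j ^ r j = d₀ e ^ (q - 1) * Θ`, and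
(A), (B) give `ainf e ^ (q² - 1) = d₀ e ^ (q² - 1) * Θ ^ (q + 1) / (c₁ * c₂ ^ q)`, symmetrically for `azero`.
Take `lamH e = (d₀ e ^ (q² - 1))⁻¹`, `lamInf = Θ ^ (q + 1) / (c₁ * c₂ ^ q)`, `lamZero = Θ ^ (q + 1) / (c₂ * c₁ ^ q)`,
`lamMid j = θ j₀ j ^ (q² - 1)`.
(Hint: work in the group `kˣ`, or write `q = q' + 1` and use `field_simp`; e.g. from (B)
`azero e = c₂ * ainf e ^ q / (d₀ e ^ (q-1) * Θ)`, substitute in (A).) -/
theorem graph_algebra {k : Type*} [Field k] [Fintype J] [Nonempty J] (q : ℕ) (hq : 1 ≤ q)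
    (r : J → ℕ) (hr : ∑ j, r j = q - 1) (ainf azero : S → k) (d : S → J → k)
    (hainf : ∀ e, ainf e ≠ 0) (hazero : ∀ e, azero e ≠ 0) (hd : ∀ e j, d e j ≠ 0)
    (c₁ c₂ : k) (hc₁ : c₁ ≠ 0) (hc₂ : c₂ ≠ 0)
    (hA : ∀ e, ainf e * ∏ j, d e j ^ r j = c₁ * azero e ^ q)
    (hB : ∀ e, azero e * ∏ j, d e j ^ r j = c₂ * ainf e ^ q)
    (θ : J → J → k) (hθ : ∀ j j', θ j j' ≠ 0) (hI : ∀ e j j', d e j' = d e j * θ j j') :
    ∃ (lamH : S → k) (lamInf lamZero : k) (lamMid : J → k),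
      (∀ e, lamH e ≠ 0) ∧ lamInf ≠ 0 ∧ lamZero ≠ 0 ∧ (∀ j, lamMid j ≠ 0) ∧
      ∀ e, ainf e ^ (q ^ 2 - 1) = lamInf / lamH e ∧ azero e ^ (q ^ 2 - 1) = lamZero / lamH e ∧
        ∀ j, d e j ^ (q ^ 2 - 1) = lamMid j / lamH e := by
  obtain ⟨j₀⟩ := ‹Nonempty J›
  obtain ⟨Θ, hΘ⟩ : ∃ Θ : k, Θ = ∏ j, θ j₀ j ^ r j := ⟨_, rfl⟩
  have hΘ0 : Θ ≠ 0 := by
    rw [hΘ]
    exact Finset.prod_ne_zero_iff.2 fun j _ => pow_ne_zero _ (hθ _ _)
  have hP : ∀ e, ∏ j, d e j ^ r j = d e j₀ ^ (q - 1) * Θ := by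
    intro e
    rw [← hr, ← Finset.prod_pow_eq_pow_sum, hΘ, ← Finset.prod_mul_distrib]
    refine Finset.prod_congr rfl fun j _ => ?_
    rw [hI e j₀ j, mul_pow]
  have hq2 : q ^ 2 - 1 = (q - 1) * (q + 1) := by
    have := Nat.sq_sub_sq q 1
    rw [one_pow] at this
    rw [this, mul_comm]
  have hPq : ∀ e, (∏ j, d e j ^ r j) ^ (q + 1) = d e j₀ ^ (q ^ 2 - 1) * Θ ^ (q + 1) := by
    intro e
    rw [hP, mul_pow, ← pow_mul, ← hq2]
  refine ⟨fun e => (d e j₀ ^ (q ^ 2 - 1))⁻¹, Θ ^ (q + 1) / (c₁ * c₂ ^ q),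
    Θ ^ (q + 1) / (c₂ * c₁ ^ q), fun j => θ j₀ j ^ (q ^ 2 - 1), ?_, ?_, ?_, ?_, ?_⟩
  · exact fun e => inv_ne_zero (pow_ne_zero _ (hd _ _))
  · exact div_ne_zero (pow_ne_zero _ hΘ0) (mul_ne_zero hc₁ (pow_ne_zero _ hc₂))
  · exact div_ne_zero (pow_ne_zero _ hΘ0) (mul_ne_zero hc₂ (pow_ne_zero _ hc₁))
  · exact fun j => pow_ne_zero _ (hθ _ _)
  · intro e
    refine ⟨?_, ?_, fun j => ?_⟩
    · rw [graph_key q hq _ _ _ c₁ c₂ (hainf e) hc₁ hc₂ (hA e) (hB e), hPq, div_inv_eq_mul]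
      ring
    · rw [graph_key q hq _ _ _ c₂ c₁ (hazero e) hc₂ hc₁ (hB e) (hA e), hPq, div_inv_eq_mul]
      ring
    · rw [hI e j₀ j, mul_pow, div_inv_eq_mul, mul_comm]

/-- **(N4')**  The same when the middle *components* are indexed by another type `J'`, the node `(e, j)` lying on the
component `μ j` (two nodes `(e, j)`, `(e, j')` of `H_e` may lie on the same middle component): if
`θ j j' ^ (q² - 1) = 1` whenever `μ j = μ j'`, then `lamMid` factors through `μ`. -/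
theorem graph_algebra' {k : Type*} [Field k] {J' : Type*} [Fintype J] [Nonempty J] (μ : J → J')
    (q : ℕ) (hq : 1 ≤ q)
    (r : J → ℕ) (hr : ∑ j, r j = q - 1) (ainf azero : S → k) (d : S → J → k)
    (hainf : ∀ e, ainf e ≠ 0) (hazero : ∀ e, azero e ≠ 0) (hd : ∀ e j, d e j ≠ 0)
    (c₁ c₂ : k) (hc₁ : c₁ ≠ 0) (hc₂ : c₂ ≠ 0)
    (hA : ∀ e, ainf e * ∏ j, d e j ^ r j = c₁ * azero e ^ q)
    (hB : ∀ e, azero e * ∏ j, d e j ^ r j = c₂ * ainf e ^ q)
    (θ : J → J → k) (hθ : ∀ j j', θ j j' ≠ 0) (hI : ∀ e j j', d e j' = d e j * θ j j')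
    (hμ : ∀ j j', μ j = μ j' → θ j j' ^ (q ^ 2 - 1) = 1) :
    ∃ (lamH : S → k) (lamInf lamZero : k) (lamMid : J' → k),
      (∀ e, lamH e ≠ 0) ∧ lamInf ≠ 0 ∧ lamZero ≠ 0 ∧ (∀ j, lamMid j ≠ 0) ∧
      ∀ e, ainf e ^ (q ^ 2 - 1) = lamInf / lamH e ∧ azero e ^ (q ^ 2 - 1) = lamZero / lamH e ∧
        ∀ j, d e j ^ (q ^ 2 - 1) = lamMid (μ j) / lamH e := by
  classical
  rcases isEmpty_or_nonempty S with hS | ⟨⟨e₀⟩⟩
  · exact ⟨fun _ => 1, 1, 1, fun _ => 1, fun _ => one_ne_zero, one_ne_zero, one_ne_zero,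
      fun _ => one_ne_zero, fun e => (hS.false e).elim⟩
  obtain ⟨lamH, lamInf, lamZero, lamMid, l1, l2, l3, l4, hl⟩ :=
    graph_algebra q hq r hr ainf azero d hainf hazero hd c₁ c₂ hc₁ hc₂ hA hB θ hθ hI
  have hfac : ∀ j j', μ j = μ j' → lamMid j' = lamMid j := by
    intro j j' hjj
    have h1 := (hl e₀).2.2 j
    have h2 := (hl e₀).2.2 j'
    rw [hI e₀ j j', mul_pow, hμ j j' hjj, mul_one, h1] at h2
    exact ((div_left_inj' (l1 e₀)).1 h2).symm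
  refine ⟨lamH, lamInf, lamZero, fun w => if h : ∃ j, μ j = w then lamMid h.choose else 1,
    l1, l2, l3, ?_, fun e => ⟨(hl e).1, (hl e).2.1, fun j => ?_⟩⟩
  · intro w
    dsimp only
    split_ifs with h
    · exact l4 _
    · exact one_ne_zero
  · have h : ∃ j', μ j' = μ j := ⟨j, rfl⟩
    dsimp only
    rw [dif_pos h, hfac j h.choose h.choose_spec.symm]
    exact (hl e).2.2 j

end Fermat.Agent.S36.Norm
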