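import Fermat.Agent.S36.Norm.Transfer
import Fermat.Agent.S36.Norm.Graph

/-!
# S36/Norm : the main theorem of block NORM

`κ ∈ K_all` (trivial on all the components of the stable fibre of `X₀(q² M')`), invariant under inertia, with
trivial norms to the two copies of `X₀(q M')`  ⟹  `(q² - 1) • κ = 0`.

* `relA_of_cover`, `relB_of_cover` : the relations (A), (B) between the values of the gluing cochain, from the
  triviality of the norms (`transfer`);
* `main` : (A) + (B) + invariance ⟹ `(q² - 1) • κ = 0`.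
-/

set_option autoImplicit false

noncomputable section

namespace Fermat.Agent.S36.Norm

open AlgebraicCurve Fermat.Agent.GAL Fermat.Agent.GAL.RED Fermat.Agent.DR.Abs Fermat.Agent.Lib.RR
open Fermat.Agent.S36.Abs

variable {K F k : Type*} [Field K] [Field F] [Algebra K F] [Field k] [IsAlgClosed k]
  {S J J' : Type*} [Fintype S] [Fintype J] [Fintype J'] [DecidableEq S]
  {Fb : Comp S J' → Type*} [∀ i, Field (Fb i)] [∀ i, Algebra k (Fb i)] [∀ i, IsFF k (Fb i)]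
  [IsFF K F] [IsAlgClosed K]

/-- The incidence relations of the stable fibre of `X₀(q² M')`: first branch on `H_e`.
The middle components are indexed by `J'`, the nodes of `H_e` towards the middle components by `J`
(the same `J` for all `e`), the node `(e, j)` lies on the middle component `μ j`. -/
structure Shape (μ : J → J') (N : NodeData k Fb (Nd S J)) : Prop where
  inf₁ : ∀ e, N.i₁ (.inf e) = .hor e
  inf₂ : ∀ e, N.i₂ (.inf e) = .inf
  zero₁ : ∀ e, N.i₁ (.zero e) = .hor e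
  zero₂ : ∀ e, N.i₂ (.zero e) = .zero
  mid₁ : ∀ e j, N.i₁ (.mid e j) = .hor e
  mid₂ : ∀ e j, N.i₂ (.mid e j) = .mid (μ j)

/-- The incidence relations of the model of `X₀(q M')` with components `C_∞'`, `C_0'`, `l_e`:
first branch on `l_e`. -/
structure Shape1 {ι1 : Type*} {Fb1 : ι1 → Type*} [∀ a, Field (Fb1 a)] [∀ a, Algebra k (Fb1 a)]
    (N1 : NodeData k Fb1 (Nd1 S)) : Prop where
  lin : ∀ e, N1.i₁ (.inf e) = N1.i₁ (.zero e)
  inf : ∀ e e', N1.i₂ (.inf e) = N1.i₂ (.inf e')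
  zero : ∀ e e', N1.i₂ (.zero e) = N1.i₂ (.zero e')

/-- Relation (A). -/
def RelA (q : ℕ) (r : J → ℕ) (g : Nd S J → k) : Prop :=
  ∃ c₁ : k, c₁ ≠ 0 ∧ ∀ e, g (.inf e) * ∏ j, g (.mid e j) ^ r j = c₁ * g (.zero e) ^ q

/-- Relation (B). -/
def RelB (q : ℕ) (r : J → ℕ) (g : Nd S J → k) : Prop :=
  ∃ c₂ : k, c₂ ≠ 0 ∧ ∀ e, g (.zero e) * ∏ j, g (.mid e j) ^ r j = c₂ * g (.inf e) ^ q

section cover

variable {F1 : Type*} [Field F1] [Algebra K F1] [Algebra F1 F] [IsScalarTower K F1 F]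
  [FiniteDimensional F1 F] [Algebra.IsSeparable F1 F] [IsFF K F1]
  {ι1 : Type*} {Fb1 : ι1 → Type*} [∀ a, Field (Fb1 a)] [∀ a, Algebra k (Fb1 a)]
  [∀ a, IsFF k (Fb1 a)]
  {J1 : ι1 → Type*} [∀ a, Fintype (J1 a)] {s : ∀ a, J1 a → Comp S J'}
  [∀ a j, Algebra (Fb1 a) (Fb (s a j))]
  {T1 : MultiRed K F1 k Fb1} {T : MultiRed K F k Fb} {m : ℕ}
  {N1 : NodeData k Fb1 (Nd1 S)} {N : NodeData k Fb (Nd S J)} {a₀ : ℕ}

theorem relA_of_cover (q : ℕ) (r : J → ℕ) {x1 : F1} (h : IsPreNodal T (algebraMap F1 F x1) N a₀)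
    (hm : (m : k) ≠ 0) (hC : Cover s T1 T) (hE1 : NodesGlued T1 x1 N1)
    (hNC : NodeCover s N1 N piA (rA q r)) (hS1 : Shape1 N1) {κ : KV K F m} {δ : Nd S J → k}
    (hδ : IsDelta T (algebraMap F1 F x1) N m κ δ)
    (hnorm : ∀ f : kummerUnits K F m, KV.mk f = κ →
      ∃ h1 : F1, h1 ^ m = Algebra.norm F1 ((f : Fˣ) : F)) : RelA q r δ := by
  obtain ⟨η, hη, hη'⟩ := transfer h hm hC hE1 hNC hδ hnorm
  rcases isEmpty_or_nonempty S with hS | ⟨⟨e₀⟩⟩
  · exact ⟨1, one_ne_zero, fun e => (hS.false e).elim⟩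
  refine ⟨η (N1.i₂ (.inf e₀)) / η (N1.i₂ (.zero e₀)), div_ne_zero (hη _) (hη _), fun e => ?_⟩
  have h1 := hη' (.inf e)
  have h2 := hη' (.zero e)
  rw [prod_piA_inf] at h1
  rw [prod_piA_zero] at h2
  simp only [rA, pow_one] at h1 h2
  rw [h1, h2, hS1.lin e, hS1.inf e e₀, hS1.zero e e₀]
  have a1 := hη (N1.i₁ (.zero e))
  have a2 := hη (N1.i₂ (.zero e₀))
  field_simp

theorem relB_of_cover (q : ℕ) (r : J → ℕ) {x1 : F1} (h : IsPreNodal T (algebraMap F1 F x1) N a₀)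
    (hm : (m : k) ≠ 0) (hC : Cover s T1 T) (hE1 : NodesGlued T1 x1 N1)
    (hNC : NodeCover s N1 N piB (rB q r)) (hS1 : Shape1 N1) {κ : KV K F m} {δ : Nd S J → k}
    (hδ : IsDelta T (algebraMap F1 F x1) N m κ δ)
    (hnorm : ∀ f : kummerUnits K F m, KV.mk f = κ →
      ∃ h1 : F1, h1 ^ m = Algebra.norm F1 ((f : Fˣ) : F)) : RelB q r δ := by
  obtain ⟨η, hη, hη'⟩ := transfer h hm hC hE1 hNC hδ hnorm
  rcases isEmpty_or_nonempty S with hS | ⟨⟨e₀⟩⟩
  · exact ⟨1, one_ne_zero, fun e => (hS.false e).elim⟩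
  refine ⟨η (N1.i₂ (.zero e₀)) / η (N1.i₂ (.inf e₀)), div_ne_zero (hη _) (hη _), fun e => ?_⟩
  have h1 := hη' (.inf e)
  have h2 := hη' (.zero e)
  rw [prod_piB_inf] at h1
  rw [prod_piB_zero] at h2
  simp only [rB, pow_one] at h1 h2
  rw [h1, h2, hS1.lin e, hS1.inf e e₀, hS1.zero e e₀]
  have a1 := hη (N1.i₁ (.zero e))
  have a2 := hη (N1.i₂ (.inf e₀))
  field_simp

end cover

/-- multiples. -/
theorem isDelta_nsmul {ι E : Type*} [Fintype ι] [Fintype E] {Fb : ι → Type*} [∀ i, Field (Fb i)]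
    [∀ i, Algebra k (Fb i)] [∀ i, IsFF k (Fb i)] {T : MultiRed K F k Fb} {x : F}
    {N : NodeData k Fb E} {a₀ : ℕ} (h : IsPreNodal T x N a₀) {m : ℕ} (hm : (m : k) ≠ 0)
    {κ : KV K F m} {δ : E → k} (hδ : IsDelta T x N m κ δ) (n : ℕ) :
    IsDelta T x N m (n • κ) (δ ^ n) := by
  have hm0 : 0 < m := Nat.pos_of_ne_zero (by rintro rfl; simp at hm)
  induction n with
  | zero => rw [zero_smul, pow_zero]; exact isDelta_zero h hm0
  | succ n ih => rw [succ_nsmul, pow_succ]; exact ih.add h hm hδ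

/-- **Main theorem of block NORM.**  (`hpar`: for `q = 2` there is only one node `H_e ∩ MID`; for `q` odd
`q² - 1` is even.  `hI`: for `j ≠ j'` an element of inertia which exchanges the nodes `(e, j)` and `(e, j')`,
for all `e`.) -/
theorem main [Nonempty J] {T : MultiRed K F k Fb} {x : F} {N : NodeData k Fb (Nd S J)} {a₀ m : ℕ}
    (h : IsPreNodal T x N a₀) (hm : (m : k) ≠ 0) (q : ℕ) (hq : 1 ≤ q) (r : J → ℕ)
    (hr : ∑ j, r j = q - 1) {μ : J → J'} (hN : Shape μ N)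
    (hpar : Function.Injective μ ∨ Even (q ^ 2 - 1)) (κ : KV K F m) (hκ : κ ∈ Kall T m)
    (hA : ∀ δ, IsDelta T x N m κ δ → RelA q r δ) (hB : ∀ δ, IsDelta T x N m κ δ → RelB q r δ)
    (hI : ∀ j j' : J, j ≠ j' → ∃ (g : SemilinearAut K F) (G : (∀ i, Fb i) → (∀ i, Fb i))
      (πE : Equiv.Perm (Nd S J)), IsSymm T x N g G (RingHom.id k) πE ∧
        g • κ = κ ∧ (∀ e, πE (.inf e) = .inf e) ∧ (∀ e, πE (.mid e j) = .mid e j') ∧
          ∀ e, πE (.mid e j') = .mid e j) :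
    (q ^ 2 - 1) • κ = 0 := by
  have hm0 : 0 < m := Nat.pos_of_ne_zero (by rintro rfl; simp at hm)
  obtain ⟨δ, hδ⟩ := exists_isDelta h hm hκ
  have hδ0 : ∀ n, δ n ≠ 0 := by
    intro n h0
    have := hδ.pow_eq_one h hm n
    rw [h0, zero_pow hm0.ne'] at this
    exact zero_ne_one this
  obtain ⟨c₁, hc₁, hA'⟩ := hA δ hδ
  obtain ⟨c₂, hc₂, hB'⟩ := hB δ hδ
  have hθ : ∀ j j' : J, ∃ θ : k, θ ≠ 0 ∧ (∀ e, δ (.mid e j') = δ (.mid e j) * θ) ∧
      (μ j = μ j' → θ ^ (q ^ 2 - 1) = 1) := by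
    intro j j'
    by_cases hjj : j = j'
    · subst hjj
      exact ⟨1, one_ne_zero, fun e => (mul_one _).symm, fun _ => one_pow _⟩
    obtain ⟨g, G, πE, hs, hinv, h1, h2, h2'⟩ := hI j j' hjj
    have hδ' := hδ.smul h hm hs
    rw [hinv] at hδ'
    obtain ⟨c, hc, hcc⟩ := hδ.unique h hm hδ'
    have hc0 : ∀ i, c i ≠ 0 := by
      intro i h0
      have := hc i
      rw [h0, zero_pow hm0.ne'] at this
      exact zero_ne_one this
    have e3 : ∀ e, c (.hor e) = c .inf := by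
      intro e
      have e1 := congrFun hcc (.inf e)
      simp only [RingHom.id_apply, Pi.mul_apply, cob] at e1
      rw [← h1 e, Equiv.symm_apply_apply, h1 e, hN.inf₁, hN.inf₂] at e1
      have h3 : c (.hor e) / c .inf = 1 := by
        apply mul_left_cancel₀ (hδ0 (.inf e))
        rw [← e1, mul_one]
      exact (div_eq_one_iff_eq (hc0 _)).1 h3
    have key : ∀ e, δ (.mid e j') = δ (.mid e j) * (c (.mid (μ j')) / c .inf) := by
      intro e
      have e2 := congrFun hcc (.mid e j')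
      simp only [RingHom.id_apply, Pi.mul_apply, cob] at e2
      rw [← h2 e, Equiv.symm_apply_apply, h2 e, hN.mid₁, hN.mid₂] at e2
      rw [e2, e3]
      have b1 := hc0 .inf
      have b2 := hc0 (.mid (μ j'))
      field_simp
    have key' : ∀ e, δ (.mid e j') = δ (.mid e j) * (c .inf / c (.mid (μ j))) := by
      intro e
      have e2 := congrFun hcc (.mid e j)
      simp only [RingHom.id_apply, Pi.mul_apply, cob] at e2
      rw [← h2' e, Equiv.symm_apply_apply, h2' e, hN.mid₁, hN.mid₂, e3] at e2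
      exact e2
    rcases isEmpty_or_nonempty S with hS | ⟨⟨e₀⟩⟩
    · exact ⟨1, one_ne_zero, fun e => (hS.false e).elim, fun _ => one_pow _⟩
    refine ⟨c (.mid (μ j')) / c .inf, div_ne_zero (hc0 _) (hc0 _), key, fun hμ => ?_⟩
    rcases hpar with hinj | ⟨t, ht⟩
    · exact absurd (hinj hμ) hjj
    have h4 : c (.mid (μ j')) / c .inf = c .inf / c (.mid (μ j')) := by
      have h5 := key e₀
      rw [key' e₀, hμ] at h5
      exact (mul_left_cancel₀ (hδ0 _) h5).symm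
    have h6 : (c (.mid (μ j')) / c .inf) * (c (.mid (μ j')) / c .inf) = 1 := by
      nth_rewrite 2 [h4]
      have b1 := hc0 .inf
      have b2 := hc0 (.mid (μ j'))
      field_simp
    rw [ht, pow_add, ← mul_pow, h6, one_pow]
  choose θ hθ0 hθ' hθμ using hθ
  obtain ⟨lamH, lamInf, lamZero, lamMid, l1, l2, l3, l4, hl⟩ :=
    graph_algebra' μ q hq r hr (fun e => δ (.inf e)) (fun e => δ (.zero e))
      (fun e j => δ (.mid e j)) (fun e => hδ0 _) (fun e => hδ0 _)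
      (fun e j => hδ0 _) c₁ c₂ hc₁ hc₂ hA' hB' θ hθ0 (fun e j j' => hθ' j j' e) hθμ
  let lam : Comp S J' → k := fun i =>
    match i with
    | .inf => lamInf⁻¹
    | .zero => lamZero⁻¹
    | .mid j => (lamMid j)⁻¹
    | .hor e => (lamH e)⁻¹
  have hlam : ∀ i, lam i ≠ 0 := by
    intro i
    cases i with
    | inf => exact inv_ne_zero l2
    | zero => exact inv_ne_zero l3
    | mid j => exact inv_ne_zero (l4 j)
    | hor e => exact inv_ne_zero (l1 e)
  have hfin : δ ^ (q ^ 2 - 1) = cob N lam := by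
    funext n
    cases n with
    | inf e =>
      show δ (.inf e) ^ (q ^ 2 - 1) = lam (N.i₁ (.inf e)) / lam (N.i₂ (.inf e))
      rw [hN.inf₁, hN.inf₂, (hl e).1]
      show _ = (lamH e)⁻¹ / lamInf⁻¹
      rw [inv_div_inv]
    | zero e =>
      show δ (.zero e) ^ (q ^ 2 - 1) = lam (N.i₁ (.zero e)) / lam (N.i₂ (.zero e))
      rw [hN.zero₁, hN.zero₂, (hl e).2.1]
      show _ = (lamH e)⁻¹ / lamZero⁻¹
      rw [inv_div_inv]
    | mid e j =>
      show δ (.mid e j) ^ (q ^ 2 - 1) = lam (N.i₁ (.mid e j)) / lam (N.i₂ (.mid e j))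
      rw [hN.mid₁, hN.mid₂, (hl e).2.2 j]
      show _ = (lamH e)⁻¹ / (lamMid (μ j))⁻¹
      rw [inv_div_inv]
  have hd := isDelta_nsmul h hm hδ (q ^ 2 - 1)
  rw [hfin] at hd
  exact hd.eq_zero h hm hlam

end Fermat.Agent.S36.Norm
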