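import Fermat.Agent.S36.Norm.Eta
import Fermat.Agent.S36.Norm.RegNorm

/-!
# S36/Norm (N3b): the transfer of the gluing cochain of a class with trivial norm is a coboundary
-/

set_option autoImplicit false

noncomputable section

namespace Fermat.Agent.S36.Norm

open AlgebraicCurve Fermat.Agent.GAL Fermat.Agent.GAL.RED Fermat.Agent.DR.Abs Fermat.Agent.Lib.RR
open Fermat.Agent.S36.Abs

variable {K F k : Type*} [Field K] [Field F] [Algebra K F] [Field k] [IsAlgClosed k] {ι : Type*}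
  {Fb : ι → Type*} [∀ i, Field (Fb i)] [∀ i, Algebra k (Fb i)] {E : Type*}
  {F1 : Type*} [Field F1] [Algebra K F1] [Algebra F1 F] [IsScalarTower K F1 F]
  [FiniteDimensional F1 F] [Algebra.IsSeparable F1 F]
  {ι1 : Type*} {Fb1 : ι1 → Type*} [∀ a, Field (Fb1 a)] [∀ a, Algebra k (Fb1 a)]
  {J : ι1 → Type*} [∀ a, Fintype (J a)] {s : ∀ a, J a → ι} [∀ a j, Algebra (Fb1 a) (Fb (s a j))]
  {T1 : MultiRed K F1 k Fb1} {T : MultiRed K F k Fb} {m : ℕ}
  [IsFF K F] [IsFF K F1] [IsAlgClosed K] [∀ i, IsFF k (Fb i)] [∀ a, IsFF k (Fb1 a)]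
  [Fintype ι] [Fintype E] {E1 : Type*} [DecidableEq E1]
  {N1 : NodeData k Fb1 E1} {N : NodeData k Fb E} {πE : E → E1} {r : E → ℕ} {a₀ : ℕ}

/-- **(N3b)**
Let `f` be the representative of `κ` given by `hδ` (`red f = 1`, `SecGlued T x N m f δ`), `h1 ^ m = Norm f`,
`y` a good section (`S36.Abs.exists_section_ev_ne_zero`, `IsSection.ord_nonneg`), `u := T.red y`: `UnitsAt N u` and
`ev (p₁ e) (u _) = δ e * ev (p₂ e) (u _)`.  `z := Norm y * h1`:
* `z ∈ T1.O`, `T1.red z = η • normFam s u` (`exists_eta`, `h.sep`);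
* `z ^ m = Norm (y ^ m * f)` is regular outside the poles of `x1` (`norm_mem_L`), hence so is `z`
  (`DR.Abs.mem_L_of_pow_mem` after `a ≤ m * a`, or `exists_mem_L_poleDiv_iff`);
* `NodesGlued T1 x1 N1`: `η (i₁ e1) * ev (p₁ e1) (normFam s u _) = η (i₂ e1) * ev (p₂ e1) (normFam s u _)`
  (`Lib.PlaceEval.ev_smul` through `DR.Abs.Ev_ev_eq` holds without regularity hypothesis);
* `NodeCover.ev₁`, `NodeCover.ev₂`, `Finset.prod_mul_distrib`, `mul_pow`; the values are `≠ 0`. -/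
theorem transfer {x1 : F1} (h : IsPreNodal T (algebraMap F1 F x1) N a₀) (hm : (m : k) ≠ 0)
    (hC : Cover s T1 T)
    (hE1 : NodesGlued T1 x1 N1) (hNC : NodeCover s N1 N πE r) {κ : KV K F m} {δ : E → k}
    (hδ : IsDelta T (algebraMap F1 F x1) N m κ δ)
    (hnorm : ∀ f : kummerUnits K F m, KV.mk f = κ →
      ∃ h1 : F1, h1 ^ m = Algebra.norm F1 ((f : Fˣ) : F)) :
    ∃ η : ι1 → k, (∀ a, η a ≠ 0) ∧
      ∀ e1, ∏ e with πE e = e1, δ e ^ r e = η (N1.i₂ e1) / η (N1.i₁ e1) := by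
  have hm0 : 0 < m := Nat.pos_of_ne_zero (by rintro rfl; simp at hm)
  obtain ⟨f, hfκ, hr, hs⟩ := hδ
  obtain ⟨h1, hh1⟩ := hnorm f hfκ
  obtain ⟨y, hy, hy₁, hy₂⟩ := exists_section_ev_ne_zero h hm (fun P => f.2 P) hr
  have hU : UnitsAt N (T.red y) := fun e =>
    ⟨⟨(IsSection.ord_nonneg h hm0 hr hy e).1, hy₁ e⟩,
      ⟨(IsSection.ord_nonneg h hm0 hr hy e).2, hy₂ e⟩⟩
  have hgl : N.Glued δ (T.red y) := hs y hy
  obtain ⟨η, hη0, hη⟩ := exists_eta hC h.sep hm0 hr hh1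
  obtain ⟨hzO, hzred⟩ := hη y hy.1
  refine ⟨η, hη0, fun e1 => ?_⟩
  -- regularity of `z`
  have hzpow : (Algebra.norm F1 y * h1) ^ m = Algebra.norm F1 (y ^ m * ((f : Fˣ) : F)) := by
    rw [mul_pow, hh1, map_mul, map_pow]
  have hreg : ∃ a : ℕ, Algebra.norm F1 y * h1 ∈ riemannRochSpace (a • poleDiv (K := K) x1) := by
    have h2 := norm_mem_L (K := K) x1 hy.2
    rw [← hzpow, exists_mem_L_poleDiv_iff] at h2
    rw [exists_mem_L_poleDiv_iff]
    intro P hP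
    have h3 := h2 P hP
    rw [ord_pow] at h3
    have hm' : (0 : ℤ) < (m : ℤ) := by exact_mod_cast hm0
    by_contra hneg
    push Not at hneg
    nlinarith
  have hG := hE1 _ hzO hreg e1
  rw [hzred, Pi.one_apply, one_mul] at hG
  simp only [Ev_ev_eq, Lib.PlaceEval.ev_smul] at hG
  simp only [← Ev_ev_eq] at hG
  rw [hNC.ev₁ _ hU e1, hNC.ev₂ _ hU e1] at hG
  have hprod : ∏ e with πE e = e1, ev (N.p₁ e) (T.red y (N.i₁ e)) ^ r e =
      (∏ e with πE e = e1, δ e ^ r e) * ∏ e with πE e = e1, ev (N.p₂ e) (T.red y (N.i₂ e)) ^ r e := by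
    rw [← Finset.prod_mul_distrib]
    refine Finset.prod_congr rfl fun e _ => ?_
    rw [hgl e, mul_pow]
  have hne : ∏ e with πE e = e1, ev (N.p₂ e) (T.red y (N.i₂ e)) ^ r e ≠ 0 :=
    Finset.prod_ne_zero_iff.2 fun e _ => pow_ne_zero _ (hy₂ e)
  rw [hprod, ← mul_assoc] at hG
  have h4 := mul_right_cancel₀ hne hG
  rw [eq_div_iff (hη0 _), mul_comm]
  exact h4

end Fermat.Agent.S36.Norm
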